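import Fermat.Agent.DigitSums.Saving
import Mathlib.RingTheory.RootsOfUnity.Complex

/-!
# Gelfond's theorem on sums of digits

Roots of unity detect the residues of `n` and of its digit sum; every term but one saves a power.
-/

set_option autoImplicit false

noncomputable section

open Finset Filter

namespace FA.DigitSums

/-- The `n < N` in given classes. -/
def classes (q m r a b N : ℕ) : Finset ℕ :=
  (range N).filter fun n => n % r = a % r ∧ digitSum q n % m = b % m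

theorem norm_root {m : ℕ} (hm : m ≠ 0) : ‖Complex.exp (2 * Real.pi * Complex.I / m)‖ = 1 :=
  Complex.norm_eq_one_of_pow_eq_one ((Complex.isPrimitiveRoot_exp m hm).pow_eq_one) hm

theorem orthogonality {m : ℕ} {ζ : ℂ} (hm : 0 < m) (hζ : IsPrimitiveRoot ζ m) (x b : ℕ) :
    ∑ j ∈ range m, (ζ ^ (x + (m - b % m))) ^ j = if x % m = b % m then (m : ℂ) else 0 := by
  have hb := Nat.mod_lt b hm
  split_ifs with h
  · have h1 : ζ ^ (x + (m - b % m)) = 1 := hζ.pow_eq_one_iff_dvd _ |>.2 ⟨x / m + 1, by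
      rw [mul_add, mul_one]
      have := Nat.div_add_mod x m
      omega⟩
    simp [h1]
  · rw [geom_sum_eq ?_, ← pow_mul, mul_comm, pow_mul, hζ.pow_eq_one, one_pow, sub_self, zero_div]
    intro h1
    refine h ?_
    have h2 : x + (m - b % m) ≡ 0 [MOD m] :=
      Nat.modEq_zero_iff_dvd.2 ((hζ.pow_eq_one_iff_dvd _).1 h1)
    have h3 : x + m ≡ b % m [MOD m] := by
      have := h2.add_right (b % m)
      rwa [zero_add, add_assoc, Nat.sub_add_cancel hb.le] at this
    have h4 : (x + m) % m = b % m % m := h3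
    rwa [Nat.add_mod_right, Nat.mod_mod] at h4

theorem card_classes_eq {q m r : ℕ} {ζ ω : ℂ} (hm : 0 < m) (hr : 0 < r)
    (hζ : IsPrimitiveRoot ζ m) (hω : IsPrimitiveRoot ω r) (a b N : ℕ) :
    ((r : ℂ) * m) * (classes q m r a b N).card =
      ∑ i ∈ range r, ∑ j ∈ range m,
        (ω ^ (r - a % r)) ^ i * (ζ ^ (m - b % m)) ^ j * expSum q (ζ ^ j) (ω ^ i) N := by
  simp only [expSum, mul_sum]
  calc ((r : ℂ) * m) * (classes q m r a b N).card
      = ∑ n ∈ range N, (∑ i ∈ range r, (ω ^ (n + (r - a % r))) ^ i) *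
          ∑ j ∈ range m, (ζ ^ (digitSum q n + (m - b % m))) ^ j := by
        rw [classes, natCast_card_filter, mul_sum]
        refine sum_congr rfl fun n _ => ?_
        rw [orthogonality hr hω, orthogonality hm hζ]
        split_ifs <;> simp_all
    _ = ∑ i ∈ range r, ∑ j ∈ range m, ∑ n ∈ range N,
          (ω ^ (r - a % r)) ^ i * (ζ ^ (m - b % m)) ^ j *
            ((ζ ^ j) ^ digitSum q n * (ω ^ i) ^ n) := by
        simp only [Finset.sum_mul_sum]
        rw [sum_comm]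
        refine sum_congr rfl fun i _ => ?_
        rw [sum_comm]
        refine sum_congr rfl fun j _ => sum_congr rfl fun n _ => ?_
        ring

/-- The main term. -/
theorem norm_expSum_one_le (q : ℕ) {w : ℂ} (hw : ‖w‖ = 1) (h1 : w ≠ 1) (N : ℕ) :
    ‖expSum q 1 w N‖ ≤ 2 / ‖w - 1‖ := by
  simp only [expSum, one_pow, one_mul]
  rw [geom_sum_eq h1, norm_div]
  gcongr
  exact (norm_sub_le _ _).trans (by simp [hw]; norm_num)

/-- **Gelfond's theorem.** -/
theorem gelfond {q m : ℕ} (hq : 2 ≤ q) (hm : 0 < m) (hcop : Nat.Coprime m (q - 1)) :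
    ∃ δ : ℝ, 0 < δ ∧ δ < 1 ∧ ∀ r : ℕ, 0 < r → ∀ a b : ℕ, ∃ C : ℝ, ∀ N : ℕ,
      |((classes q m r a b N).card : ℝ) - (N : ℝ) / ((r : ℝ) * m)| ≤ C * (N : ℝ) ^ δ := by
  set ζ := Complex.exp (2 * Real.pi * Complex.I / m) with hζdef
  have hζ : IsPrimitiveRoot ζ m := Complex.isPrimitiveRoot_exp m hm.ne'
  set Z : Set ℂ := (fun j => ζ ^ j) '' Set.Ico 1 m with hZ
  obtain ⟨δ, K, hδ0, hδ1, hK⟩ := exists_powerSaving hq Z ((Set.finite_Ico 1 m).image _)
    (by rintro _ ⟨j, -, rfl⟩; simp [hζdef, norm_root hm.ne']) (by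
      rintro _ ⟨j, ⟨hj1, hjm⟩, rfl⟩ h
      rw [← pow_mul, hζ.pow_eq_one_iff_dvd] at h
      have := Nat.le_of_dvd hj1 (hcop.dvd_of_dvd_mul_right h)
      omega)
  refine ⟨δ, hδ0, hδ1, fun r hr a b => ?_⟩
  set ω := Complex.exp (2 * Real.pi * Complex.I / r) with hωdef
  have hω : IsPrimitiveRoot ω r := Complex.isPrimitiveRoot_exp r hr.ne'
  have hωn : ‖ω‖ = 1 := norm_root hr.ne'
  have hζn : ‖ζ‖ = 1 := norm_root hm.ne'
  refine ⟨(∑ i ∈ range r, (2 / ‖ω ^ i - 1‖ + ((m - 1 : ℕ) : ℝ) * K)) / ((r : ℝ) * m),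
    fun N => ?_⟩
  rcases Nat.eq_zero_or_pos N with rfl | hN
  · simp [classes, Real.zero_rpow hδ0.ne']
  have hN1 : (1 : ℝ) ≤ (N : ℝ) ^ δ := Real.one_le_rpow (by exact_mod_cast hN) hδ0.le
  have hrm : 0 < (r : ℝ) * m := by positivity
  have key : ‖((r : ℂ) * m) * (classes q m r a b N).card - N‖ ≤
      (∑ i ∈ range r, (2 / ‖ω ^ i - 1‖ + ((m - 1 : ℕ) : ℝ) * K)) * (N : ℝ) ^ δ := by
    obtain ⟨r', rfl⟩ : ∃ r', r = r' + 1 := ⟨r - 1, by omega⟩
    obtain ⟨m', rfl⟩ : ∃ m', m = m' + 1 := ⟨m - 1, by omega⟩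
    rw [card_classes_eq hm hr hζ hω, sum_range_succ' (n := r'), sum_range_succ' (n := r'), add_mul,
      sum_mul]
    have hterm : ∀ i j : ℕ, ‖(ω ^ (r' + 1 - a % (r' + 1))) ^ i *
        (ζ ^ (m' + 1 - b % (m' + 1))) ^ j * expSum q (ζ ^ j) (ω ^ i) N‖ =
        ‖expSum q (ζ ^ j) (ω ^ i) N‖ := fun i j => by simp [hωn, hζn]
    have hj : ∀ i : ℕ, ‖∑ j ∈ range m', (ω ^ (r' + 1 - a % (r' + 1))) ^ i *
        (ζ ^ (m' + 1 - b % (m' + 1))) ^ (j + 1) * expSum q (ζ ^ (j + 1)) (ω ^ i) N‖ ≤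
        (m' : ℝ) * K * (N : ℝ) ^ δ := fun i => by
      refine (norm_sum_le _ _).trans ?_
      refine (sum_le_card_nsmul _ _ (K * (N : ℝ) ^ δ) fun j hj => ?_).trans
        (le_of_eq (by simp; ring))
      rw [hterm]
      exact hK _ ⟨j + 1, ⟨by omega, by have := mem_range.1 hj; omega⟩, rfl⟩ _ (by simp [hωn]) N hN
    have h0 : expSum q 1 1 N = N := by simp [expSum]
    have htail : ∀ i, i + 1 < r' + 1 → ‖∑ j ∈ range (m' + 1),
        (ω ^ (r' + 1 - a % (r' + 1))) ^ (i + 1) *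
          (ζ ^ (m' + 1 - b % (m' + 1))) ^ j * expSum q (ζ ^ j) (ω ^ (i + 1)) N‖ ≤
        (2 / ‖ω ^ (i + 1) - 1‖ + (m' : ℝ) * K) * (N : ℝ) ^ δ := fun i hi => by
      rw [sum_range_succ', add_mul]
      refine (norm_add_le _ _).trans (le_of_le_of_eq (add_le_add (hj _) ?_) (add_comm _ _))
      rw [hterm, pow_zero]
      refine (norm_expSum_one_le q (by simp [hωn]) (fun h => ?_) N).trans
        (le_mul_of_one_le_right (by positivity) hN1)
      exact (hω.pow_eq_one_iff_dvd _).1 h |> Nat.le_of_dvd (by omega) |> not_le.2 hi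
    rw [Nat.add_sub_cancel, add_sub_assoc]
    refine (norm_add_le _ _).trans (add_le_add ((norm_sum_le _ _).trans
      (sum_le_sum fun i hi => htail i (by have := mem_range.1 hi; omega))) ?_)
    rw [sum_range_succ', pow_zero, pow_zero, pow_zero, pow_zero, one_mul, one_mul, h0,
      add_sub_cancel_right]
    simpa using hj 0
  have hcast : ‖((r : ℂ) * m) * (classes q m r a b N).card - N‖ =
      |((r : ℝ) * m) * (classes q m r a b N).card - N| := by
    rw [← Real.norm_eq_abs, ← Complex.norm_real]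
    push_cast
    rfl
  rw [hcast] at key
  have e : ((classes q m r a b N).card : ℝ) - (N : ℝ) / ((r : ℝ) * m) =
      (((r : ℝ) * m) * (classes q m r a b N).card - N) / ((r : ℝ) * m) := by
    field_simp
  rw [e, abs_div, abs_of_pos hrm, div_mul_eq_mul_div, div_le_div_iff_of_pos_right hrm]
  exact key

/-- **The density.** -/
theorem tendsto_density {q m : ℕ} (hq : 2 ≤ q) (hm : 0 < m) (hcop : Nat.Coprime m (q - 1))
    {r : ℕ} (hr : 0 < r) (a b : ℕ) :
    Tendsto (fun N : ℕ => ((classes q m r a b N).card : ℝ) / N) atTop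
      (nhds (1 / ((r : ℝ) * m))) := by
  obtain ⟨δ, hδ0, hδ1, h⟩ := gelfond hq hm hcop
  obtain ⟨C, hC⟩ := h r hr a b
  rw [← tendsto_sub_nhds_zero_iff]
  have hlim : Tendsto (fun N : ℕ => C * (N : ℝ) ^ (δ - 1)) atTop (nhds 0) := by
    simpa using ((tendsto_rpow_neg_atTop (show 0 < 1 - δ by linarith)).comp
      tendsto_natCast_atTop_atTop).const_mul C
  refine squeeze_zero_norm' ?_ hlim
  filter_upwards [eventually_gt_atTop 0] with N hN
  have hN' : (0 : ℝ) < N := by exact_mod_cast hN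
  rw [Real.norm_eq_abs, Real.rpow_sub hN', Real.rpow_one, ← mul_div_assoc,
    show ((classes q m r a b N).card : ℝ) / N - 1 / ((r : ℝ) * m) =
      (((classes q m r a b N).card : ℝ) - (N : ℝ) / ((r : ℝ) * m)) / N by field_simp,
    abs_div, abs_of_pos hN', div_le_div_iff_of_pos_right hN']
  exact hC N

end FA.DigitSums

end
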