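import Mathlib.Analysis.Complex.Basic
import Mathlib.Analysis.SpecialFunctions.Log.Base
import Mathlib.Analysis.SpecialFunctions.Pow.Real
import Mathlib.Data.Nat.Digits.Lemmas
import Mathlib.Tactic

/-!
# Exponential sums with sums of digits

The sum of `z ^ (s n) * w ^ n` over `n < N` splits off a geometric sum at each digit, and two
successive geometric sums cannot both be large unless `z ^ (q - 1) = 1`.
-/

set_option autoImplicit false

noncomputable section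

open Finset

namespace FA.DigitSums

/-- The sum of the digits in base `q`. -/
def digitSum (q n : ℕ) : ℕ := (Nat.digits q n).sum

theorem digitSum_add {q : ℕ} (hq : 2 ≤ q) {d : ℕ} (hd : d < q) (n : ℕ) :
    digitSum q (q * n + d) = digitSum q n + d := by
  rcases eq_or_ne (d + q * n) 0 with h | h
  · obtain ⟨rfl, h'⟩ := Nat.add_eq_zero_iff.1 h
    obtain rfl : n = 0 := by
      rcases Nat.mul_eq_zero.1 h' with h | h <;> omega
    simp [digitSum]
  · rw [add_comm, digitSum, Nat.digits_add q hq d n hd ?_, List.sum_cons, digitSum, add_comm]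
    by_contra! h'
    simp [h'.1, h'.2] at h

/-- The exponential sum. -/
def expSum (q : ℕ) (z w : ℂ) (N : ℕ) : ℂ := ∑ n ∈ range N, z ^ digitSum q n * w ^ n

/-- The geometric sum of one digit. -/
def digitFactor (q : ℕ) (u : ℂ) : ℂ := ∑ d ∈ range q, u ^ d

theorem expSum_mul {q : ℕ} (hq : 2 ≤ q) (z w : ℂ) (M : ℕ) :
    expSum q z w (q * M) = digitFactor q (z * w) * expSum q z (w ^ q) M := by
  induction M with
  | zero => simp [expSum]
  | succ M ih =>
    rw [expSum, mul_add, mul_one, sum_range_add, ← expSum, ih]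
    simp only [expSum, sum_range_succ, mul_add, digitFactor, sum_mul]
    congr 1
    refine sum_congr rfl fun d hd => ?_
    rw [digitSum_add hq (mem_range.1 hd), pow_add, pow_add, mul_pow, ← pow_mul]
    ring

theorem norm_expSum_le_nat (q : ℕ) {z w : ℂ} (hz : ‖z‖ = 1) (hw : ‖w‖ = 1) (N : ℕ) :
    ‖expSum q z w N‖ ≤ N :=
  (norm_sum_le _ _).trans (by simp [hz, hw])

theorem norm_digitFactor_le (q : ℕ) {u : ℂ} (hu : ‖u‖ = 1) : ‖digitFactor q u‖ ≤ q :=
  (norm_sum_le _ _).trans (by simp [hu])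

theorem norm_digitFactor_lt {q : ℕ} (hq : 2 ≤ q) {u : ℂ} (hu : ‖u‖ = 1) (h1 : u ≠ 1) :
    ‖digitFactor q u‖ < q := by
  obtain ⟨k, rfl⟩ : ∃ k, q = 2 + k := ⟨q - 2, by omega⟩
  rw [digitFactor, sum_range_add]
  refine lt_of_le_of_lt (norm_add_le _ _) ?_
  have h2 : ‖∑ d ∈ range k, u ^ (2 + d)‖ ≤ k := (norm_sum_le _ _).trans (by simp [hu])
  have h3 : ‖∑ d ∈ range 2, u ^ d‖ < 2 := by
    have e : u.re * u.re + u.im * u.im = 1 := by
      rw [← Complex.normSq_apply, Complex.normSq_eq_norm_sq, hu, one_pow]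
    have hre : u.re < 1 := by
      by_contra! h
      refine h1 (Complex.ext ?_ ?_) <;> simp only [Complex.one_re, Complex.one_im] <;> nlinarith
    refine lt_of_pow_lt_pow_left₀ 2 (by norm_num) ?_
    rw [← Complex.normSq_eq_norm_sq, Complex.normSq_apply]
    simp [sum_range_succ]
    nlinarith
  push_cast
  linarith

theorem norm_expSum_step {q : ℕ} (hq : 2 ≤ q) {z w : ℂ} (hz : ‖z‖ = 1) (hw : ‖w‖ = 1) (N : ℕ) :
    ‖expSum q z w N‖ ≤ ‖digitFactor q (z * w)‖ * ‖expSum q z (w ^ q) (N / q)‖ + q := by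
  conv_lhs => rw [← Nat.div_add_mod N q]
  rw [expSum, sum_range_add, ← expSum, expSum_mul hq]
  refine (norm_add_le _ _).trans (add_le_add (le_of_eq (norm_mul _ _)) ?_)
  refine (norm_sum_le _ _).trans ?_
  simp [hz, hw, (Nat.mod_lt N (by omega : q > 0)).le]

/-- Two digits save a constant factor. -/
theorem exists_saving {q : ℕ} (hq : 2 ≤ q) (Z : Set ℂ) (hZ : Z.Finite)
    (hZ1 : ∀ z ∈ Z, ‖z‖ = 1) (hZ2 : ∀ z ∈ Z, z ^ (q - 1) ≠ 1) :
    ∃ B : ℝ, (q : ℝ) ≤ B ∧ B < (q : ℝ) ^ 2 ∧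
      ∀ z ∈ Z, ∀ w : ℂ, ‖w‖ = 1 → ‖digitFactor q (z * w)‖ * ‖digitFactor q (z * w ^ q)‖ ≤ B := by
  have hq1 : (2 : ℝ) ≤ q := by exact_mod_cast hq
  rcases Z.eq_empty_or_nonempty with rfl | hne
  · exact ⟨q, le_rfl, by nlinarith, by simp⟩
  obtain ⟨⟨z₀, w₀⟩, ⟨hz₀, hw₀⟩, hmax⟩ :=
    (hZ.isCompact.prod (isCompact_sphere (0 : ℂ) 1)).exists_isMaxOn
      (hne.prod ⟨1, by simp⟩)
      (f := fun x : ℂ × ℂ => ‖digitFactor q (x.1 * x.2)‖ * ‖digitFactor q (x.1 * x.2 ^ q)‖)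
      (Continuous.continuousOn (by unfold digitFactor; fun_prop))
  rw [mem_sphere_zero_iff_norm] at hw₀
  have hlt : ‖digitFactor q (z₀ * w₀)‖ * ‖digitFactor q (z₀ * w₀ ^ q)‖ < (q : ℝ) ^ 2 := by
    have hu : ‖z₀ * w₀‖ = 1 := by simp [hZ1 _ hz₀, hw₀]
    have hu' : ‖z₀ * w₀ ^ q‖ = 1 := by simp [hZ1 _ hz₀, hw₀]
    have hb := norm_digitFactor_le q hu
    have hb' := norm_digitFactor_le q hu'
    by_cases h : z₀ * w₀ = 1
    · have h' : z₀ * w₀ ^ q ≠ 1 := fun h' => hZ2 _ hz₀ (by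
        have hz0 : z₀ ≠ 0 := left_ne_zero_of_mul_eq_one h
        have e : z₀ ^ q = z₀ := by
          calc z₀ ^ q = z₀ ^ q * (z₀ * w₀ ^ q) := by rw [h', mul_one]
            _ = z₀ * (z₀ * w₀) ^ q := by ring
            _ = z₀ := by rw [h, one_pow, mul_one]
        refine mul_left_cancel₀ hz0 ?_
        rw [← pow_succ', Nat.sub_add_cancel (by omega), e, mul_one])
      rw [sq]
      exact mul_lt_mul' hb (norm_digitFactor_lt hq hu' h') (norm_nonneg _) (by linarith)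
    · rw [sq]
      exact mul_lt_mul_of_nonneg_of_pos (norm_digitFactor_lt hq hu h) hb' (norm_nonneg _)
        (by linarith)
  exact ⟨max (‖digitFactor q (z₀ * w₀)‖ * ‖digitFactor q (z₀ * w₀ ^ q)‖) q, le_max_right _ _,
    max_lt hlt (by nlinarith), fun z hz w hw =>
      le_trans (hmax (a := (z, w)) ⟨hz, mem_sphere_zero_iff_norm.2 hw⟩) (le_max_left _ _)⟩

/-- **The power saving.** -/
theorem exists_powerSaving {q : ℕ} (hq : 2 ≤ q) (Z : Set ℂ) (hZ : Z.Finite)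
    (hZ1 : ∀ z ∈ Z, ‖z‖ = 1) (hZ2 : ∀ z ∈ Z, z ^ (q - 1) ≠ 1) :
    ∃ δ K : ℝ, 0 < δ ∧ δ < 1 ∧ ∀ z ∈ Z, ∀ w : ℂ, ‖w‖ = 1 → ∀ N : ℕ, 0 < N →
      ‖expSum q z w N‖ ≤ K * (N : ℝ) ^ δ := by
  obtain ⟨B, hB, hB2, hsave⟩ := exists_saving hq Z hZ hZ1 hZ2
  have hq1 : (2 : ℝ) ≤ q := by exact_mod_cast hq
  have hQ1 : (1 : ℝ) < (q : ℝ) ^ 2 := by nlinarith
  set δ := Real.logb ((q : ℝ) ^ 2) B with hδ
  have hδ0 : 0 < δ := Real.logb_pos hQ1 (by linarith)
  have hpow : ((q : ℝ) ^ 2) ^ δ = B := Real.rpow_logb (by linarith) hQ1.ne' (by linarith)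
  have hδ1 : δ < 1 := (Real.logb_lt_iff_lt_rpow hQ1 (by linarith)).2 (by rwa [Real.rpow_one])
  set D : ℝ := ((q : ℝ) ^ 2 + q) / (B - 1) with hD
  have hB1 : 0 < B - 1 := by linarith
  have hD0 : 0 ≤ D := by positivity
  have hK0 : 0 ≤ (q : ℝ) ^ 2 + D := by positivity
  refine ⟨δ, (q : ℝ) ^ 2 + D, hδ0, hδ1, fun z hz => ?_⟩
  suffices h : ∀ N : ℕ, 0 < N → ∀ w : ℂ, ‖w‖ = 1 →
      ‖expSum q z w N‖ ≤ ((q : ℝ) ^ 2 + D) * (N : ℝ) ^ δ - D from
    fun w hw N hN => (h N hN w hw).trans (sub_le_self _ hD0)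
  intro N
  induction N using Nat.strong_induction_on with
  | _ N ih =>
    intro hN w hw
    have hN1 : (1 : ℝ) ≤ (N : ℝ) ^ δ := Real.one_le_rpow (by exact_mod_cast hN) hδ0.le
    by_cases hsmall : N < q * q
    · refine (norm_expSum_le_nat q (hZ1 z hz) hw N).trans ?_
      have : (N : ℝ) ≤ (q : ℝ) ^ 2 := by
        rw [sq]; exact_mod_cast hsmall.le
      nlinarith [mul_le_mul_of_nonneg_left hN1 hK0]
    · rw [not_lt] at hsmall
      have hM0 : 0 < N / q / q := by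
        rw [Nat.div_div_eq_div_mul]
        exact Nat.div_pos hsmall (by positivity)
      have hMN : N / q / q < N := by
        rw [Nat.div_div_eq_div_mul]
        exact Nat.div_lt_self hN (by nlinarith)
      have hwq : ‖w ^ q‖ = 1 := by simp [hw]
      have hwqq : ‖(w ^ q) ^ q‖ = 1 := by simp [hw]
      have h1 := norm_expSum_step hq (hZ1 z hz) hw N
      have h2 := norm_expSum_step hq (hZ1 z hz) hwq (N / q)
      have h3 := ih _ hMN hM0 _ hwqq
      have hF := norm_digitFactor_le q (show ‖z * w‖ = 1 by simp [hZ1 z hz, hw])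
      have hprod := hsave z hz w hw
      have hMle : ((N / q / q : ℕ) : ℝ) * (q : ℝ) ^ 2 ≤ N := by
        rw [Nat.div_div_eq_div_mul, sq]
        exact_mod_cast Nat.div_mul_le_self N (q * q)
      have hBM : B * ((N / q / q : ℕ) : ℝ) ^ δ ≤ (N : ℝ) ^ δ := by
        rw [← hpow, ← Real.mul_rpow (by positivity) (Nat.cast_nonneg _), mul_comm]
        exact Real.rpow_le_rpow (by positivity) hMle hδ0.le
      have hDB : B * D - ((q : ℝ) ^ 2 + q) = D := by
        rw [hD]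
        field_simp
        ring
      have hB0 : 0 ≤ B := by linarith
      calc ‖expSum q z w N‖ ≤ ‖digitFactor q (z * w)‖ *
            (‖digitFactor q (z * w ^ q)‖ * ‖expSum q z ((w ^ q) ^ q) (N / q / q)‖ + q) + q :=
            h1.trans (by gcongr)
        _ ≤ B * ‖expSum q z ((w ^ q) ^ q) (N / q / q)‖ + ((q : ℝ) ^ 2 + q) := by
            rw [mul_add, ← mul_assoc]
            have := mul_le_mul_of_nonneg_right hprod
              (norm_nonneg (expSum q z ((w ^ q) ^ q) (N / q / q)))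
            have := mul_le_mul_of_nonneg_right hF (by linarith : (0 : ℝ) ≤ q)
            linarith
        _ ≤ B * (((q : ℝ) ^ 2 + D) * ((N / q / q : ℕ) : ℝ) ^ δ - D) + ((q : ℝ) ^ 2 + q) := by
            gcongr
        _ ≤ _ := by nlinarith [mul_le_mul_of_nonneg_left hBM hK0]

end FA.DigitSums

end
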